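/-
S25 / block ALGCHARTS (board origin/helper11:coord/S25-ALGCHARTS.md), helper447:
shared sub-lemma **SH1 (INJ)**, in the frozen `ACDefs` language, with NO fibre hypotheses
(no domains, no McCoy): for a curve chart and a gluing datum `G` over any `k`-algebra `A`,

* `eq_zero_of_mul_eq_zero_of_sub_one_mem` : every `u ∈ 1 + (1 ⊗ y)` is a nonzerodivisor of
  `A ⊗ B₁` (`⋂ y^j (A ⊗ B₁) = 0`);
* `exists_smul_mem_of_genModY` : Nakayama, `b` generates `N₁` mod `y` ⇒ some `u ∈ 1 + (y)` has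
  `u • N₁ ⊆ R₁ b`;
* `smul_eq_zero_of_genModY`   : `b` generates `N₁` mod `y` ⇒ `r • b = 0 → r = 0`;
* `sec_snd_smul_eq_zero`, `sec_fst_smul_eq_zero`, `sec_r₀_smul_eq_zero` : a section
  `s ∈ sec x n G` with `GenModY y G s.2` is torsion-free on both charts and on the overlap.
-/
import Fermat.Agent.S25.H11.ACDefs
import Fermat.Agent.S25.H250.AdapterProj
import Fermat.Agent.S25.H250.DegreeBound

set_option autoImplicit false
set_option linter.style.haveILetI false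
set_option linter.unusedSectionVars false

universe u

open scoped TensorProduct
open Polynomial

namespace Fermat.Agent.S25.H447

open Fermat.Agent.S25 Fermat.Agent.S25.H10 Fermat.Agent.S25.H11 Fermat.Agent.S25.H250

section

variable {k : Type u} [Field k] {B₀ B₁ B₀₁ : Type u} [CommRing B₀] [CommRing B₁] [CommRing B₀₁]
  [Algebra k B₀] [Algebra k B₁] [Algebra k B₀₁] [Algebra B₀ B₀₁] [Algebra B₁ B₀₁]
  [IsScalarTower k B₀ B₀₁] [IsScalarTower k B₁ B₀₁]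
  {x : B₀} {y : B₁} {e : B₁ →ₐ[k] k} {A : Type u} [CommRing A] [Algebra k A]

/-- An element in the image of all powers of an `IsFGProj` operator is zero. -/
theorem eq_zero_of_forall_mem_range_pow {N : Type u} [AddCommGroup N] [Module A N]
    {E : Module.End A N} (hE : IsFGProj E) (v : N) (h : ∀ j : ℕ, ∃ w, v = (E ^ j) w) :
    v = 0 := by
  obtain ⟨n, ι, π, h1, h2, -⟩ := hE
  have hι : ι v = 0 := by
    funext i
    ext m
    obtain ⟨w, hw⟩ := h (m + 1)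
    rw [hw, iota_pow_of_equivariant E ι h2]
    simp only [Pi.smul_apply, smul_eq_mul, Pi.zero_apply, coeff_zero]
    rw [coeff_X_pow_mul', if_neg (by omega)]
  have := LinearMap.congr_fun h1 v
  simp only [LinearMap.coe_comp, Function.comp_apply, LinearMap.id_coe, id_eq] at this
  rw [← this, hι, map_zero]

/-- `⋂ y^j (A ⊗ B₁) = 0`. -/
theorem eq_zero_of_forall_pow_y_dvd (hC : IsCurveChart k B₀ B₁ B₀₁ x y e) (r : A ⊗[k] B₁)
    (h : ∀ j : ℕ, ∃ w, r = yElt k A y ^ j * w) : r = 0 := by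
  haveI := hC.away₀
  haveI := hC.away₁
  have hE := isFGProj_Y1 hC (GlueDatum.unit A (A ⊗[k] B₀) (A ⊗[k] B₁) (A ⊗[k] B₀₁))
  refine eq_zero_of_forall_mem_range_pow hE (r : A ⊗[k] B₁) (fun j => ?_)
  obtain ⟨w, hw⟩ := h j
  refine ⟨w, ?_⟩
  rw [show chartCechOps hC (GlueDatum.unit A (A ⊗[k] B₀) (A ⊗[k] B₁) (A ⊗[k] B₀₁)) =
    toCechOps x y hC.mul_eq_one _ from rfl, toCechOps_Y1_pow_apply]
  exact hw

/-- Every element of `1 + (1 ⊗ y)` is a nonzerodivisor of `A ⊗ B₁`. -/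
theorem eq_zero_of_mul_eq_zero_of_sub_one_mem (hC : IsCurveChart k B₀ B₁ B₀₁ x y e)
    (u r : A ⊗[k] B₁) (hu : u - 1 ∈ Ideal.span {yElt k A y}) (h : r * u = 0) : r = 0 := by
  obtain ⟨c, hc⟩ := Ideal.mem_span_singleton'.mp hu
  -- `u = 1 + c * y`, so `r = (-c) * y * r`
  have hr : r = yElt k A y * ((-c) * r) := by
    have : r * u = r + yElt k A y * (c * r) := by
      have hu' : u = 1 + c * yElt k A y := by rw [hc]; ring
      rw [hu']; ring
    rw [this] at h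
    have h2 : r = -(yElt k A y * (c * r)) := eq_neg_of_add_eq_zero_left h
    calc r = -(yElt k A y * (c * r)) := h2
      _ = yElt k A y * ((-c) * r) := by ring
  refine eq_zero_of_forall_pow_y_dvd hC r (fun j => ?_)
  induction j with
  | zero => exact ⟨r, by simp⟩
  | succ j ih =>
    obtain ⟨w, hw⟩ := ih
    refine ⟨(-c) * w, ?_⟩
    calc r = yElt k A y * ((-c) * r) := hr
      _ = yElt k A y * ((-c) * (yElt k A y ^ j * w)) := by rw [← hw]
      _ = yElt k A y ^ (j + 1) * ((-c) * w) := by ring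

/-- Nakayama: if `b` generates `N₁` modulo `y` then some `u ∈ 1 + (y)` maps `N₁` into
`R₁ b`. -/
theorem exists_smul_mem_of_genModY {G : CurveGD k B₀ B₁ B₀₁ A} {b : G.N₁} (hb : GenModY y G b) :
    ∃ u : A ⊗[k] B₁, u - 1 ∈ Ideal.span {yElt k A y} ∧
      ∀ c : G.N₁, u • c ∈ Submodule.span (A ⊗[k] B₁) {b} := by
  haveI := G.invertible₁
  have hfg : (⊤ : Submodule (A ⊗[k] B₁) G.N₁).FG := Module.finite_def.mp inferInstance
  have hle : (⊤ : Submodule (A ⊗[k] B₁) G.N₁) ≤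
      Submodule.span (A ⊗[k] B₁) {b} ⊔ Ideal.span {yElt k A y} • ⊤ := by
    intro c _
    obtain ⟨r, hr⟩ := hb c
    have : c = r • b + (c - r • b) := by abel
    rw [this]
    exact Submodule.add_mem_sup (Submodule.smul_mem _ _ (Submodule.mem_span_singleton_self b)) hr
  obtain ⟨u, hu, hule⟩ := Submodule.exists_sub_one_mem_and_smul_le_of_fg_of_le_sup hfg le_rfl hle
  refine ⟨u, hu, fun c => hule ?_⟩
  exact Submodule.smul_mem_pointwise_smul c u ⊤ Submodule.mem_top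

/-- **SH1 (INJ), chart 1.**  A section of `N₁` generating modulo `y` is torsion-free. -/
theorem smul_eq_zero_of_genModY (hC : IsCurveChart k B₀ B₁ B₀₁ x y e)
    {G : CurveGD k B₀ B₁ B₀₁ A} {b : G.N₁} (hb : GenModY y G b) (r : A ⊗[k] B₁)
    (h : r • b = 0) : r = 0 := by
  haveI := G.invertible₁
  obtain ⟨u, hu, hmem⟩ := exists_smul_mem_of_genModY hb
  refine eq_zero_of_mul_eq_zero_of_sub_one_mem hC u r hu ?_
  -- `r * u` kills `N₁`, which is faithful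
  have hkill : ∀ c : G.N₁, (r * u) • c = (0 : A ⊗[k] B₁) • c := by
    intro c
    obtain ⟨t, ht⟩ := Submodule.mem_span_singleton.mp (hmem c)
    rw [mul_smul, ← ht, smul_comm, h, smul_zero, zero_smul]
  exact FaithfulSMul.eq_of_smul_eq_smul hkill

/-- `(1 ⊗ y) * (1 ⊗ x) = 1` in `A ⊗ B₀₁`. -/
theorem yImg_mul_xElt (hC : IsCurveChart k B₀ B₁ B₀₁ x y e) :
    algebraMap (A ⊗[k] B₁) (A ⊗[k] B₀₁) (yElt k A y) * xElt k B₀₁ A x = 1 := by
  rw [yElt, xElt, algebraMap_tensor_tmul, Algebra.TensorProduct.tmul_mul_tmul, one_mul,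
    mul_comm, hC.mul_eq_one, ← Algebra.TensorProduct.one_def]

theorem yImg_pow_mul_xElt_pow (hC : IsCurveChart k B₀ B₁ B₀₁ x y e) (j : ℕ) :
    algebraMap (A ⊗[k] B₁) (A ⊗[k] B₀₁) (yElt k A y) ^ j * xElt k B₀₁ A x ^ j = 1 := by
  rw [← mul_pow, yImg_mul_xElt hC, one_pow]

/-- `r₁` is injective. -/
theorem r₁_injective (hC : IsCurveChart k B₀ B₁ B₀₁ x y e) (G : CurveGD k B₀ B₁ B₀₁ A) :
    Function.Injective G.r₁ := r1_injective hC G

/-- `r₀` is injective. -/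
theorem r₀_injective (hC : IsCurveChart k B₀ B₁ B₀₁ x y e) (G : CurveGD k B₀ B₁ B₀₁ A) :
    Function.Injective G.r₀ := r0_injective hC G

/-- Elements of `A ⊗ B₀₁` have numerators in `A ⊗ B₁`. -/
theorem exists_yImg_pow_mul_eq (hC : IsCurveChart k B₀ B₁ B₀₁ x y e) (t : A ⊗[k] B₀₁) :
    ∃ (j : ℕ) (t' : A ⊗[k] B₁),
      t * algebraMap (A ⊗[k] B₁) (A ⊗[k] B₀₁) (yElt k A y) ^ j =
        algebraMap (A ⊗[k] B₁) (A ⊗[k] B₀₁) t' := by
  haveI := hC.away₁
  haveI : IsLocalization.Away ((1 : A) ⊗ₜ[k] y : A ⊗[k] B₁) (A ⊗[k] B₀₁) :=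
    isLocalization_away_tensor B₁ B₀₁ y
  obtain ⟨j, t', h⟩ := IsLocalization.Away.surj ((1 : A) ⊗ₜ[k] y : A ⊗[k] B₁) t
  exact ⟨j, t', h⟩

/-- **SH1 (INJ), overlap.**  For a section `s` of `G(n E₀)` whose second component generates
`N₁` modulo `y`, the restriction `r₁ s.2` is torsion-free over `A ⊗ B₀₁`. -/
theorem r₁_smul_eq_zero_of_genModY (hC : IsCurveChart k B₀ B₁ B₀₁ x y e)
    {G : CurveGD k B₀ B₁ B₀₁ A} {b : G.N₁} (hb : GenModY y G b) (r : A ⊗[k] B₀₁)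
    (h : r • G.r₁ b = 0) : r = 0 := by
  obtain ⟨j, r', hr'⟩ := exists_yImg_pow_mul_eq hC r
  have h1 : G.r₁ (r' • b) = 0 := by
    rw [map_smul, ← algebraMap_smul (A ⊗[k] B₀₁) r' (G.r₁ b), ← hr', mul_comm, mul_smul, h,
      smul_zero]
  have h2 : r' = 0 := smul_eq_zero_of_genModY hC hb r' (r₁_injective hC G (by rw [h1, map_zero]))
  rw [h2, map_zero] at hr'
  calc r = r * (algebraMap (A ⊗[k] B₁) (A ⊗[k] B₀₁) (yElt k A y) ^ j * xElt k B₀₁ A x ^ j) := by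
        rw [yImg_pow_mul_xElt_pow hC, mul_one]
    _ = 0 := by rw [← mul_assoc, hr', zero_mul]

/-- **SH1 (INJ), overlap, section form.** -/
theorem sec_r₀_smul_eq_zero (hC : IsCurveChart k B₀ B₁ B₀₁ x y e)
    {G : CurveGD k B₀ B₁ B₀₁ A} {n : ℕ} {s : G.N₀ × G.N₁} (hs : s ∈ sec x n G)
    (hgen : GenModY y G s.2) (r : A ⊗[k] B₀₁) (h : r • G.r₀ s.1 = 0) : r = 0 := by
  rw [mem_sec.mp hs, smul_smul] at h
  have h1 := r₁_smul_eq_zero_of_genModY hC hgen _ h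
  calc r = r * xElt k B₀₁ A x ^ n *
        algebraMap (A ⊗[k] B₁) (A ⊗[k] B₀₁) (yElt k A y) ^ n := by
        rw [mul_assoc, mul_comm (xElt k B₀₁ A x ^ n), yImg_pow_mul_xElt_pow hC, mul_one]
    _ = 0 := by rw [h1, zero_mul]

/-- **SH1 (INJ), chart 1, section form.** -/
theorem sec_snd_smul_eq_zero (hC : IsCurveChart k B₀ B₁ B₀₁ x y e)
    {G : CurveGD k B₀ B₁ B₀₁ A} {n : ℕ} {s : G.N₀ × G.N₁} (_hs : s ∈ sec x n G)
    (hgen : GenModY y G s.2) (r : A ⊗[k] B₁) (h : r • s.2 = 0) : r = 0 :=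
  smul_eq_zero_of_genModY hC hgen r h

/-- **SH1 (INJ), chart 0.**  For a section `s` of `G(n E₀)` whose second component generates
`N₁` modulo `y`, the first component is torsion-free over `A ⊗ B₀`. -/
theorem sec_fst_smul_eq_zero (hC : IsCurveChart k B₀ B₁ B₀₁ x y e)
    {G : CurveGD k B₀ B₁ B₀₁ A} {n : ℕ} {s : G.N₀ × G.N₁} (hs : s ∈ sec x n G)
    (hgen : GenModY y G s.2) (r : A ⊗[k] B₀) (h : r • s.1 = 0) : r = 0 := by
  have h1 : algebraMap (A ⊗[k] B₀) (A ⊗[k] B₀₁) r • G.r₀ s.1 = 0 := by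
    rw [algebraMap_smul, ← map_smul, h, map_zero]
  have h2 := sec_r₀_smul_eq_zero hC hs hgen _ h1
  -- `A ⊗ B₀ → A ⊗ B₀₁` is injective: it is `r₀` of the unit datum
  have hinj : Function.Injective (algebraMap (A ⊗[k] B₀) (A ⊗[k] B₀₁)) :=
    r₀_injective hC (GlueDatum.unit A (A ⊗[k] B₀) (A ⊗[k] B₁) (A ⊗[k] B₀₁))
  exact hinj (h2.trans (map_zero _).symm)

end

end Fermat.Agent.S25.H447
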