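import Mathlib

/-!
# S25, block CURVE, leaf C2 (pure algebra): integral algebras over an algebraically closed
field are geometrically integral

`isDomain_tensorProduct_of_isAlgClosed`: for an algebraically closed field `k` and `k`-algebras
`A`, `B` that are domains, `A ⊗[k] B` is a domain.

Proof: Nullstellensatz + Jacobson property on a finitely generated subalgebra of `A`.
-/

set_option autoImplicit false
set_option linter.style.haveILetI false
set_option linter.unusedSectionVars false

namespace Fermat.Agent.S25.H447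

open TensorProduct

section

variable {k : Type*} [Field k] [IsAlgClosed k]

/-- A maximal ideal of a finitely generated algebra over an algebraically closed field is the
kernel of a `k`-point. -/
theorem exists_algHom_ker_eq {A : Type*} [CommRing A] [Algebra k A] [Algebra.FiniteType k A]
    (m : Ideal A) [hm : m.IsMaximal] : ∃ φ : A →ₐ[k] k, ∀ a, φ a = 0 ↔ a ∈ m := by
  letI : Field (A ⧸ m) := Ideal.Quotient.field m
  haveI : Algebra.FiniteType k (A ⧸ m) :=
    Algebra.FiniteType.of_surjective (Ideal.Quotient.mkₐ k m) (Ideal.Quotient.mkₐ_surjective k m)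
  haveI : Module.Finite k (A ⧸ m) := finite_of_finite_type_of_isJacobsonRing k (A ⧸ m)
  haveI : Algebra.IsIntegral k (A ⧸ m) := Algebra.IsIntegral.of_finite k (A ⧸ m)
  have hbij : Function.Bijective (algebraMap k (A ⧸ m)) :=
    IsAlgClosed.algebraMap_bijective_of_isIntegral
  let e : k ≃ₐ[k] (A ⧸ m) := AlgEquiv.ofBijective (Algebra.ofId k (A ⧸ m)) hbij
  refine ⟨(e.symm : (A ⧸ m) →ₐ[k] k).comp (Ideal.Quotient.mkₐ k m), fun a => ?_⟩
  simp only [AlgHom.comp_apply, AlgEquiv.coe_toAlgHom, Ideal.Quotient.mkₐ_eq_mk]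
  rw [map_eq_zero_iff _ e.symm.injective, Ideal.Quotient.eq_zero_iff_mem]

/-- In a finitely generated reduced algebra over an algebraically closed field, an element killed
by all `k`-points is zero. -/
theorem eq_zero_of_forall_algHom_eq_zero {A : Type*} [CommRing A] [Algebra k A]
    [Algebra.FiniteType k A] [IsReduced A] (a : A) (h : ∀ φ : A →ₐ[k] k, φ a = 0) : a = 0 := by
  haveI : IsJacobsonRing A := isJacobsonRing_of_finiteType (A := k) (B := A)
  have hj : (⊥ : Ideal A).jacobson = ⊥ :=
    IsJacobsonRing.out (inferInstance : IsJacobsonRing A) Ideal.isRadical_bot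
  rw [← Ideal.mem_bot, ← hj, Ideal.jacobson, Ideal.mem_sInf]
  rintro m ⟨-, hm⟩
  haveI := hm
  obtain ⟨φ, hφ⟩ := exists_algHom_ker_eq (k := k) m
  exact (hφ a).mp (h φ)

variable {A B : Type*} [CommRing A] [CommRing B] [Algebra k A] [Algebra k B]

/-- Specialisation of `A ⊗[k] B` along a `k`-point of `A`. -/
noncomputable def specialize (φ : A →ₐ[k] k) : A ⊗[k] B →ₐ[k] B :=
  (Algebra.TensorProduct.lid k B : k ⊗[k] B →ₐ[k] B).comp
    (Algebra.TensorProduct.map φ (AlgHom.id k B))

@[simp] theorem specialize_tmul (φ : A →ₐ[k] k) (a : A) (b : B) :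
    specialize φ (a ⊗ₜ[k] b) = φ a • b := by
  simp [specialize]

theorem specialize_sum {κ : Type*} (𝒞 : Module.Basis κ k B) (φ : A →ₐ[k] k) (c : κ →₀ A) :
    specialize φ (c.sum fun i a => a ⊗ₜ[k] 𝒞 i) =
      Finsupp.linearCombination k 𝒞 (c.mapRange φ (map_zero φ)) := by
  classical
  rw [Finsupp.sum, map_sum, Finsupp.linearCombination_apply,
    Finsupp.sum_mapRange_index (fun i => zero_smul k (𝒞 i)), Finsupp.sum]
  refine Finset.sum_congr rfl fun i _ => ?_
  rw [specialize_tmul]

theorem forall_eq_zero_of_specialize_eq_zero {κ : Type*} (𝒞 : Module.Basis κ k B)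
    (φ : A →ₐ[k] k) (c : κ →₀ A)
    (h : specialize φ (c.sum fun i a => a ⊗ₜ[k] 𝒞 i) = 0) (i : κ) : φ (c i) = 0 := by
  rw [specialize_sum] at h
  have h2 := (linearIndependent_iff.mp 𝒞.linearIndependent) _ h
  have h3 := DFunLike.congr_fun h2 i
  simpa using h3

/-- The finitely generated case. -/
theorem mul_eq_zero_of_finiteType [Algebra.FiniteType k A] [IsDomain A] [IsDomain B]
    {z w : A ⊗[k] B} (h : z * w = 0) : z = 0 ∨ w = 0 := by
  classical
  let 𝒞 := Module.Basis.ofVectorSpace k B
  obtain ⟨c, rfl⟩ : ∃ c : _ →₀ A, z = c.sum fun i a => a ⊗ₜ[k] 𝒞 i :=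
    ⟨TensorProduct.equivFinsuppOfBasisRight 𝒞 z, by
      rw [← TensorProduct.equivFinsuppOfBasisRight_symm_apply, LinearEquiv.symm_apply_apply]⟩
  obtain ⟨c', rfl⟩ : ∃ c' : _ →₀ A, w = c'.sum fun i a => a ⊗ₜ[k] 𝒞 i :=
    ⟨TensorProduct.equivFinsuppOfBasisRight 𝒞 w, by
      rw [← TensorProduct.equivFinsuppOfBasisRight_symm_apply, LinearEquiv.symm_apply_apply]⟩
  have key : ∀ i j, c i * c' j = 0 := by
    intro i j
    apply eq_zero_of_forall_algHom_eq_zero (k := k)
    intro φ
    have h1 : specialize φ (c.sum fun i a => a ⊗ₜ[k] 𝒞 i) *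
        specialize φ (c'.sum fun i a => a ⊗ₜ[k] 𝒞 i) = 0 := by
      rw [← map_mul, h, map_zero]
    rcases mul_eq_zero.mp h1 with h2 | h2
    · rw [map_mul, forall_eq_zero_of_specialize_eq_zero 𝒞 φ c h2 i, zero_mul]
    · rw [map_mul, forall_eq_zero_of_specialize_eq_zero 𝒞 φ c' h2 j, mul_zero]
  by_cases hc : c = 0
  · left; simp [hc]
  · right
    obtain ⟨i, hi⟩ : ∃ i, c i ≠ 0 := by
      by_contra hcon
      push Not at hcon
      exact hc (Finsupp.ext hcon)
    have hc' : c' = 0 := Finsupp.ext fun j => (mul_eq_zero.mp (key i j)).resolve_left hi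
    simp [hc']

/-- Integral algebras over an algebraically closed field: the tensor product has no zero
divisors. -/
theorem mul_eq_zero_of_isAlgClosed [IsDomain A] [IsDomain B]
    {z w : A ⊗[k] B} (h : z * w = 0) : z = 0 ∨ w = 0 := by
  classical
  obtain ⟨S, hS⟩ := TensorProduct.exists_finset z
  obtain ⟨T, hT⟩ := TensorProduct.exists_finset w
  set A' : Subalgebra k A := Algebra.adjoin k ((S ∪ T).image fun j => j.1 : Finset A) with hA'
  haveI : Algebra.FiniteType k A' := Algebra.FiniteType.adjoin_of_finite (Finset.finite_toSet _)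
  have hmemS : ∀ s ∈ S, s.1 ∈ A' := fun s hs =>
    Algebra.subset_adjoin (Finset.mem_coe.mpr (Finset.mem_image_of_mem _
      (Finset.mem_union_left _ hs)))
  have hmemT : ∀ s ∈ T, s.1 ∈ A' := fun s hs =>
    Algebra.subset_adjoin (Finset.mem_coe.mpr (Finset.mem_image_of_mem _
      (Finset.mem_union_right _ hs)))
  let ι : A' ⊗[k] B →ₐ[k] A ⊗[k] B := Algebra.TensorProduct.map A'.val (AlgHom.id k B)
  have hι : Function.Injective ι := by
    have h1 : Function.Injective (LinearMap.rTensor B A'.val.toLinearMap) :=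
      Module.Flat.rTensor_preserves_injective_linearMap _ Subtype.val_injective
    intro x y hxy
    apply h1
    have h2 : ∀ u : A' ⊗[k] B, LinearMap.rTensor B A'.val.toLinearMap u = ι u := by
      intro u
      induction u using TensorProduct.induction_on with
      | zero => simp
      | tmul a b => simp [ι]
      | add u v hu hv => simp only [map_add, hu, hv]
    rw [h2, h2, hxy]
  let z' : A' ⊗[k] B := ∑ s ∈ S.attach, (⟨s.1.1, hmemS s.1 s.2⟩ : A') ⊗ₜ[k] s.1.2
  let w' : A' ⊗[k] B := ∑ s ∈ T.attach, (⟨s.1.1, hmemT s.1 s.2⟩ : A') ⊗ₜ[k] s.1.2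
  have hz : ι z' = z := by
    rw [hS, map_sum, ← Finset.sum_attach S]
    refine Finset.sum_congr rfl fun s _ => ?_
    simp [ι]
  have hw : ι w' = w := by
    rw [hT, map_sum, ← Finset.sum_attach T]
    refine Finset.sum_congr rfl fun s _ => ?_
    simp [ι]
  have h' : z' * w' = 0 := hι (by rw [map_mul, hz, hw, h, map_zero])
  rcases mul_eq_zero_of_finiteType (k := k) h' with h0 | h0
  · left; rw [← hz, h0, map_zero]
  · right; rw [← hw, h0, map_zero]

/-- **Geometric integrality over an algebraically closed field.** If `k` is algebraically closed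
and `A`, `B` are `k`-algebras which are domains, then `A ⊗[k] B` is a domain. -/
theorem isDomain_tensorProduct_of_isAlgClosed (k : Type*) [Field k] [IsAlgClosed k]
    (A B : Type*) [CommRing A] [CommRing B] [Algebra k A] [Algebra k B]
    [IsDomain A] [IsDomain B] : IsDomain (A ⊗[k] B) := by
  haveI : NoZeroDivisors (A ⊗[k] B) := ⟨fun h => mul_eq_zero_of_isAlgClosed (k := k) h⟩
  haveI : Nontrivial (A ⊗[k] B) := by
    have hinj : Function.Injective (algebraMap A (A ⊗[k] B)) :=
      Algebra.TensorProduct.includeLeft_injective (S := k) (algebraMap k B).injective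
    exact hinj.nontrivial
  exact NoZeroDivisors.to_isDomain _

end

end Fermat.Agent.S25.H447
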