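/-
S25 / block ABEL, sub-block AB-ALG (board origin/helper747:coord/S25-ABALG.md), helper447:
leaf **G3** `homDatum_isBC` — the internal Hom of gluing data commutes with base change along
a morphism of cospans — together with its module-level core `exists_semilinear_hom`.
-/
import Fermat.Agent.S25.H747.GDHom

set_option autoImplicit false
set_option linter.style.haveILetI false
universe u
open scoped TensorProduct

namespace Fermat.Agent.S25.H447

open Fermat.Agent.S25 Fermat.Agent.S25.H747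

noncomputable section

section Semilinear

variable {R S : Type u} [CommRing R] [CommRing S] (ρ : R →+* S)
  {M N P Q : Type u} [AddCommGroup M] [Module R M] [AddCommGroup N] [Module R N]
  [AddCommGroup P] [Module S P] [AddCommGroup Q] [Module S Q]

/-- The image of a semilinear base-change map spans the target: two linear maps that agree on
the image are equal. -/
theorem IsSemilinearBaseChange.linearMap_ext {α : M →ₛₗ[ρ] P} (hα : IsSemilinearBaseChange ρ α)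
    {g₁ g₂ : P →ₗ[S] Q} (h : ∀ m, g₁ (α m) = g₂ (α m)) : g₁ = g₂ := by
  unfold IsSemilinearBaseChange at hα
  letI : Algebra R S := ρ.toAlgebra
  letI : Module R P := Module.compHom P ρ
  haveI : IsScalarTower R S P := ⟨fun r r' n => by
    change (ρ r * r') • n = ρ r • (r' • n); rw [mul_smul]⟩
  exact IsBaseChange.algHom_ext hα g₁ g₂ h

/-- **Base change of `Hom`, semilinear form.**  If `α : M → P` and `β : N → Q` are
`ρ`-semilinear base changes and `M` is finitely generated projective, then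
`Hom_R(M, N) → Hom_S(P, Q)`, `f ↦ (α m ↦ β (f m))`, is a `ρ`-semilinear base change. -/
theorem exists_semilinear_hom [Module.Finite R M] [Module.Projective R M]
    {α : M →ₛₗ[ρ] P} (hα : IsSemilinearBaseChange ρ α)
    {β : N →ₛₗ[ρ] Q} (hβ : IsSemilinearBaseChange ρ β) :
    ∃ b : (M →ₗ[R] N) →ₛₗ[ρ] (P →ₗ[S] Q), IsSemilinearBaseChange ρ b ∧
      ∀ f m, b f (α m) = β (f m) := by
  unfold IsSemilinearBaseChange at hα hβ ⊢
  letI algRS : Algebra R S := ρ.toAlgebra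
  letI modP : Module R P := Module.compHom P ρ
  letI modQ : Module R Q := Module.compHom Q ρ
  haveI towP : IsScalarTower R S P := ⟨fun r r' n => by
    change (ρ r * r') • n = ρ r • (r' • n); rw [mul_smul]⟩
  haveI towQ : IsScalarTower R S Q := ⟨fun r r' n => by
    change (ρ r * r') • n = ρ r • (r' • n); rw [mul_smul]⟩
  set α' : M →ₗ[R] P :=
    { toFun := fun n => α n
      map_add' := fun m n => α.map_add m n
      map_smul' := fun r n => LinearMap.map_smulₛₗ α r n } with hα'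
  set β' : N →ₗ[R] Q :=
    { toFun := fun n => β n
      map_add' := fun m n => β.map_add m n
      map_smul' := fun r n => LinearMap.map_smulₛₗ β r n } with hβ'
  have hL : IsBaseChange S (IsBaseChange.linearMapLeftRightHom hα β') :=
    isBaseChange_linearMapLeftRightHom hα hβ
  have key : ∀ f m, IsBaseChange.linearMapLeftRightHom hα β' f (α m) = β (f m) := fun f m =>
    IsBaseChange.linearMapLeftRightHom_comp_apply hα β' f m
  refine ⟨{ toFun := fun f => IsBaseChange.linearMapLeftRightHom hα β' f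
            map_add' := fun f g => map_add _ f g
            map_smul' := fun r f => ?_ }, ?_, key⟩
  · rw [LinearMap.map_smul]
    rfl
  · refine IsBaseChange.of_equiv hL.equiv (fun f => ?_)
    rw [IsBaseChange.equiv_tmul, one_smul]
    rfl

end Semilinear

section GD

variable {A R₀ R₁ R₀₁ : Type u} [CommRing A] [CommRing R₀] [CommRing R₁]
    [CommRing R₀₁] [Algebra A R₀] [Algebra A R₁] [Algebra A R₀₁] [Algebra R₀ R₀₁]
    [Algebra R₁ R₀₁] [IsScalarTower A R₀ R₀₁] [IsScalarTower A R₁ R₀₁]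
    {A' R₀' R₁' R₀₁' : Type u} [CommRing A'] [CommRing R₀'] [CommRing R₁']
    [CommRing R₀₁'] [Algebra A' R₀'] [Algebra A' R₁'] [Algebra A' R₀₁'] [Algebra R₀' R₀₁']
    [Algebra R₁' R₀₁'] [IsScalarTower A' R₀' R₀₁'] [IsScalarTower A' R₁' R₀₁']

/-- The module over the intersection of a gluing datum is invertible. -/
theorem GlueDatum.invertible₀₁ (G : GlueDatum A R₀ R₁ R₀₁) : Module.Invertible R₀₁ G.N₀₁ :=
  haveI := G.invertible₀
  Module.Invertible.congr G.isBaseChange₀.equiv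

/-- Compatibility of the `Hom` base-change maps with restriction (one chart). -/
theorem homBC_comm {S T S' T' : Type u} [CommRing S] [CommRing T] [CommRing S'] [CommRing T']
    [Algebra S T] [Algebra S' T'] (σ : S →+* S') (τ : T →+* T')
    {M N : Type u} [AddCommGroup M] [Module S M] [AddCommGroup N] [Module S N]
    {M₁ N₁ : Type u} [AddCommGroup M₁] [Module T M₁] [Module S M₁] [IsScalarTower S T M₁]
    [AddCommGroup N₁] [Module T N₁] [Module S N₁] [IsScalarTower S T N₁]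
    {M' N' : Type u} [AddCommGroup M'] [Module S' M'] [AddCommGroup N'] [Module S' N']
    {M₁' N₁' : Type u} [AddCommGroup M₁'] [Module T' M₁'] [Module S' M₁']
    [IsScalarTower S' T' M₁']
    [AddCommGroup N₁'] [Module T' N₁'] [Module S' N₁'] [IsScalarTower S' T' N₁']
    {r : M →ₗ[S] M₁} (hr : IsBaseChange T r) (rN : N →ₗ[S] N₁)
    {r' : M' →ₗ[S'] M₁'} (hr' : IsBaseChange T' r') (rN' : N' →ₗ[S'] N₁')
    (bM : M →ₛₗ[σ] M') (bN : N →ₛₗ[σ] N') (bM₁ : M₁ →ₛₗ[τ] M₁') (bN₁ : N₁ →ₛₗ[τ] N₁')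
    (hbM₁ : IsSemilinearBaseChange τ bM₁)
    (cM : ∀ m, bM₁ (r m) = r' (bM m)) (cN : ∀ n, bN₁ (rN n) = rN' (bN n))
    (c : (M →ₗ[S] N) →ₛₗ[σ] (M' →ₗ[S'] N')) (hc : ∀ f m, c f (bM m) = bN (f m))
    (c₁ : (M₁ →ₗ[T] N₁) →ₛₗ[τ] (M₁' →ₗ[T'] N₁')) (hc₁ : ∀ f m, c₁ f (bM₁ m) = bN₁ (f m))
    (f : M →ₗ[S] N) :
    c₁ (IsBaseChange.linearMapLeftRightHom hr rN f) =
      IsBaseChange.linearMapLeftRightHom hr' rN' (c f) := by
  refine IsSemilinearBaseChange.linearMap_ext τ hbM₁ (fun n => ?_)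
  rw [hc₁]
  refine hr.inductionOn n _ ?_ (fun m => ?_) (fun t n hn => ?_) (fun n₁ n₂ h₁ h₂ => ?_)
  · simp
  · rw [IsBaseChange.linearMapLeftRightHom_comp_apply, cN, cM,
      IsBaseChange.linearMapLeftRightHom_comp_apply, hc]
  · rw [map_smul, LinearMap.map_smulₛₗ, LinearMap.map_smulₛₗ, map_smul, hn]
  · rw [map_add, map_add, map_add, map_add, h₁, h₂]

/-- **G3.** `ℋom` commutes with base change along a morphism of cospans. -/
theorem homDatum_isBC (ρ₀ : R₀ →+* R₀') (ρ₁ : R₁ →+* R₁') (ρ₀₁ : R₀₁ →+* R₀₁')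
    (h₀ : ρ₀₁.comp (algebraMap R₀ R₀₁) = (algebraMap R₀' R₀₁').comp ρ₀)
    (h₁ : ρ₀₁.comp (algebraMap R₁ R₀₁) = (algebraMap R₁' R₀₁').comp ρ₁)
    {G G' : GlueDatum A R₀ R₁ R₀₁} {G₁ G₁' : GlueDatum A' R₀' R₁' R₀₁'}
    (hG : GlueDatum.IsBC ρ₀ ρ₁ ρ₀₁ G G₁) (hG' : GlueDatum.IsBC ρ₀ ρ₁ ρ₀₁ G' G₁') :
    GlueDatum.IsBC ρ₀ ρ₁ ρ₀₁ (homDatum G G') (homDatum G₁ G₁') := by
  obtain ⟨bG⟩ := hG
  obtain ⟨bG'⟩ := hG'
  haveI := G.invertible₀
  haveI := G.invertible₁
  haveI := GlueDatum.invertible₀₁ G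
  obtain ⟨c₀, hc₀, k₀⟩ := exists_semilinear_hom ρ₀ bG.isBaseChange₀ bG'.isBaseChange₀
  obtain ⟨c₁, hc₁, k₁⟩ := exists_semilinear_hom ρ₁ bG.isBaseChange₁ bG'.isBaseChange₁
  obtain ⟨c₀₁, hc₀₁, k₀₁⟩ := exists_semilinear_hom ρ₀₁ bG.isBaseChange₀₁ bG'.isBaseChange₀₁
  exact ⟨{ b₀ := c₀, b₁ := c₁, b₀₁ := c₀₁
           comm₀ := fun f => homBC_comm ρ₀ ρ₀₁ G.isBaseChange₀ G'.r₀ G₁.isBaseChange₀ G₁'.r₀
             bG.b₀ bG'.b₀ bG.b₀₁ bG'.b₀₁ bG.isBaseChange₀₁ bG.comm₀ bG'.comm₀ c₀ k₀ c₀₁ k₀₁ f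
           comm₁ := fun f => homBC_comm ρ₁ ρ₀₁ G.isBaseChange₁ G'.r₁ G₁.isBaseChange₁ G₁'.r₁
             bG.b₁ bG'.b₁ bG.b₀₁ bG'.b₀₁ bG.isBaseChange₀₁ bG.comm₁ bG'.comm₁ c₁ k₁ c₀₁ k₀₁ f
           isBaseChange₀ := hc₀, isBaseChange₁ := hc₁, isBaseChange₀₁ := hc₀₁ }⟩

end GD

end

end Fermat.Agent.S25.H447
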